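import Fermat.Agent.LGV.Main
import Mathlib.Algebra.Order.Ring.Int
import Mathlib.Order.Fin.Basic

/-!
# Binomial determinants

`C (a, b)` counts the lattice paths from `(0, a)` to `(b, b)` with steps to the right or up;
disjoint systems can join increasing starts to increasing ends only in order.
-/

set_option autoImplicit false

noncomputable section

open Finset

namespace FA.LGV

variable {M : ℕ}

/-- The steps of the grid: to the right, or up. -/
def gridStep (u v : Fin (M + 1) × Fin (M + 1)) : Prop :=
  (v.1.val = u.1.val + 1 ∧ v.2.val = u.2.val) ∨ (v.1.val = u.1.val ∧ v.2.val + 1 = u.2.val)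

instance : DecidableRel (gridStep (M := M)) := fun u v => by
  unfold gridStep
  infer_instance

theorem gridStep_rank : ∀ u v : Fin (M + 1) × Fin (M + 1), gridStep u v →
    u.1.val + (M - u.2.val) < v.1.val + (M - v.2.val) := by
  intro u v h
  have := u.2.isLt
  rcases h with h | h <;> omega

theorem pathSum_grid (x y c : Fin (M + 1)) :
    pathSum gridStep_rank (fun _ _ => (1 : ℤ)) (x, y) (c, c) =
      if x.val ≤ c.val ∧ c.val ≤ y.val then
        ((y.val - x.val).choose (c.val - x.val) : ℤ) else 0 := by
  induction hk : (M - x.val) + y.val using Nat.strong_induction_on generalizing x y with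
  | _ k ih =>
    have hx := x.isLt
    have hy := y.isLt
    have hc := c.isLt
    have key : ∀ v : Fin (M + 1) × Fin (M + 1), gridStep (x, y) v →
        pathSum gridStep_rank (fun _ _ => (1 : ℤ)) v (c, c) =
          if v.1.val ≤ c.val ∧ c.val ≤ v.2.val then
            ((v.2.val - v.1.val).choose (c.val - v.1.val) : ℤ) else 0 := by
      intro v hv
      have := v.1.isLt
      refine ih _ ?_ v.1 v.2 rfl
      rcases hv with ⟨h1, h2⟩ | ⟨h1, h2⟩ <;> simp only at h1 h2 ⊢ <;> omega
    rw [pathSum_eq gridStep_rank]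
    have hsum : (∑ v : Fin (M + 1) × Fin (M + 1),
        if gridStep (x, y) v then (1 : ℤ) * pathSum gridStep_rank (fun _ _ => (1 : ℤ)) v (c, c)
        else 0) = ∑ v : Fin (M + 1) × Fin (M + 1),
        ((if v.1.val = x.val + 1 ∧ v.2.val = y.val then
          (if v.1.val ≤ c.val ∧ c.val ≤ v.2.val then
            ((v.2.val - v.1.val).choose (c.val - v.1.val) : ℤ) else 0) else 0) +
        (if v.1.val = x.val ∧ v.2.val + 1 = y.val then
          (if v.1.val ≤ c.val ∧ c.val ≤ v.2.val then
            ((v.2.val - v.1.val).choose (c.val - v.1.val) : ℤ) else 0) else 0)) := by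
      refine sum_congr rfl fun v _ => ?_
      by_cases hv : gridStep (x, y) v
      · rw [if_pos hv, one_mul, key v hv]
        rcases hv with h | h
        · rw [if_pos h, if_neg (c := v.1.val = x.val ∧ v.2.val + 1 = y.val)
            fun h' => by simp only at h; omega, add_zero]
        · rw [if_pos h, if_neg (c := v.1.val = x.val + 1 ∧ v.2.val = y.val)
            fun h' => by simp only at h; omega, zero_add]
      · rw [if_neg hv, if_neg fun h => hv (Or.inl h), if_neg fun h => hv (Or.inr h), add_zero]
    rw [hsum, sum_add_distrib]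
    have hright : (∑ v : Fin (M + 1) × Fin (M + 1), if v.1.val = x.val + 1 ∧ v.2.val = y.val then
          (if v.1.val ≤ c.val ∧ c.val ≤ v.2.val then
            ((v.2.val - v.1.val).choose (c.val - v.1.val) : ℤ) else 0) else 0) =
        if x.val + 1 ≤ c.val ∧ c.val ≤ y.val then
          ((y.val - (x.val + 1)).choose (c.val - (x.val + 1)) : ℤ) else 0 := by
      by_cases hM : x.val + 1 ≤ M
      · rw [sum_eq_single (⟨x.val + 1, by omega⟩, y)]
        · simp
        · intro v _ hne
          exact if_neg fun h => hne (Prod.ext (Fin.ext h.1) (Fin.ext h.2))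
        · simp
      · rw [sum_eq_zero fun v _ => if_neg fun h => ?_, if_neg (by omega)]
        have := v.1.isLt
        omega
    have hup : (∑ v : Fin (M + 1) × Fin (M + 1), if v.1.val = x.val ∧ v.2.val + 1 = y.val then
          (if v.1.val ≤ c.val ∧ c.val ≤ v.2.val then
            ((v.2.val - v.1.val).choose (c.val - v.1.val) : ℤ) else 0) else 0) =
        if x.val ≤ c.val ∧ c.val + 1 ≤ y.val then
          ((y.val - 1 - x.val).choose (c.val - x.val) : ℤ) else 0 := by
      rcases Nat.eq_zero_or_pos y.val with h0 | hpos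
      · rw [sum_eq_zero fun v _ => if_neg fun h => by omega, if_neg (by omega)]
      · rw [sum_eq_single (x, ⟨y.val - 1, by omega⟩)]
        · rw [if_pos ⟨rfl, by show y.val - 1 + 1 = _; omega⟩]
          exact if_congr ⟨fun h => ⟨h.1, by have := h.2; simp only at this; omega⟩,
            fun h => ⟨h.1, by show c.val ≤ y.val - 1; omega⟩⟩ rfl rfl
        · intro v _ hne
          exact if_neg fun h => hne (Prod.ext (Fin.ext h.1)
            (Fin.ext (by show v.2.val = y.val - 1; omega)))
        · simp
    rw [hright, hup]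
    rcases eq_or_ne (x, y) (c, c) with h | h
    · simp only [Prod.mk.injEq] at h
      obtain ⟨rfl, rfl⟩ := h
      simp
    rw [if_neg h, zero_add]
    have hne : ¬(x.val = c.val ∧ y.val = c.val) := fun e => h (Prod.ext (Fin.ext e.1) (Fin.ext e.2))
    by_cases hin : x.val ≤ c.val ∧ c.val ≤ y.val
    · rw [if_pos hin]
      rcases eq_or_lt_of_le hin.1 with hxc | hxc
      · rw [if_neg (by omega), if_pos (by omega), zero_add, ← hxc, Nat.sub_self,
          Nat.choose_zero_right, Nat.choose_zero_right]
      rcases eq_or_lt_of_le hin.2 with hyc | hyc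
      · rw [if_pos (by omega), if_neg (by omega), add_zero, hyc, Nat.choose_self,
          Nat.choose_self]
      obtain ⟨i, hi⟩ : ∃ i, c.val = x.val + 1 + i := Nat.exists_eq_add_of_le hxc
      obtain ⟨j, hj⟩ : ∃ j, y.val = x.val + 1 + j := Nat.exists_eq_add_of_le (by omega)
      rw [if_pos (by omega), if_pos (by omega), hi, hj,
        show x.val + 1 + j - (x.val + 1) = j by omega, show x.val + 1 + j - 1 - x.val = j by omega,
        show x.val + 1 + j - x.val = j + 1 by omega, show x.val + 1 + i - x.val = i + 1 by omega,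
        show x.val + 1 + i - (x.val + 1) = i by omega, Nat.choose_succ_succ']
      push_cast
      rfl
    · rw [if_neg hin, if_neg (by omega), if_neg (by omega), add_zero]

theorem exists_meet : ∀ (k : ℕ) (l l' : List (Fin (M + 1) × Fin (M + 1))),
    l.length + l'.length = k → ∀ (x y y' c c' : Fin (M + 1)), y.val < y'.val → c'.val < c.val →
      IsPath gridStep (x, y) (c, c) l → IsPath gridStep (x, y') (c', c') l' →
      ∃ z ∈ l, z ∈ l' := by
  intro k
  induction k using Nat.strong_induction_on with
  | _ k ih =>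
    intro l l' hk x y y' c c' hy hc ⟨hlc, hlh, hll⟩ ⟨hmc, hmh, hml⟩
    have hbound : ∀ (m : List (Fin (M + 1) × Fin (M + 1))) (u e : Fin (M + 1) × Fin (M + 1)),
        IsPath gridStep u e m → u.1.val ≤ e.1.val ∧ e.2.val ≤ u.2.val := by
      intro m
      induction m with
      | nil => intro u e ⟨_, h, _⟩; simp at h
      | cons z m ihm =>
        intro u e ⟨hch, hh, hlast⟩
        obtain rfl : z = u := by simpa using hh
        rcases m with - | ⟨z', m⟩
        · obtain rfl : z = e := by simpa using hlast
          exact ⟨le_rfl, le_rfl⟩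
        · rw [List.isChain_cons_cons] at hch
          obtain ⟨h1, h2⟩ := ihm z' e ⟨hch.2, rfl, by simpa [List.getLast?_cons_cons] using hlast⟩
          rcases hch.1 with h | h <;> omega
    have hbl := hbound l _ _ ⟨hlc, hlh, hll⟩
    have hbm := hbound l' _ _ ⟨hmc, hmh, hml⟩
    rcases l with - | ⟨u, - | ⟨u₁, t⟩⟩
    · simp at hlh
    · obtain rfl : u = (x, y) := by simpa using hlh
      have h1 := congrArg (fun p : Fin (M + 1) × Fin (M + 1) => p.1.val)
        (show (x, y) = (c, c) by simpa using hll)
      simp only at h1 hbl hbm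
      omega
    obtain rfl : u = (x, y) := by simpa using hlh
    rcases l' with - | ⟨u', - | ⟨u₁', t'⟩⟩
    · simp at hmh
    · obtain rfl : u' = (x, y') := by simpa using hmh
      have h1 := congrArg (fun p : Fin (M + 1) × Fin (M + 1) => p.2.val)
        (show (x, y') = (c', c') by simpa using hml)
      simp only at h1 hbl hbm
      omega
    obtain rfl : u' = (x, y') := by simpa using hmh
    rw [List.isChain_cons_cons] at hlc hmc
    rw [List.getLast?_cons_cons] at hll hml
    simp only [List.length_cons] at hk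
    rcases hlc.1 with ⟨e1, e2⟩ | ⟨e1, e2⟩ <;> simp only at e1 e2
    · rcases hmc.1 with ⟨f1, f2⟩ | ⟨f1, f2⟩ <;> simp only at f1 f2
      · obtain ⟨x₁, y₁⟩ := u₁
        obtain ⟨x₁', y₁'⟩ := u₁'
        simp only at e1 e2 f1 f2
        obtain rfl : x₁' = x₁ := Fin.ext (by omega)
        obtain ⟨z, hz, hz'⟩ := ih (t.length + 1 + (t'.length + 1)) (by omega)
          ((x₁', y₁) :: t) ((x₁', y₁') :: t') (by simp) x₁' y₁ y₁'
          c c' (by omega) hc ⟨hlc.2, rfl, hll⟩ ⟨hmc.2, rfl, hml⟩
        exact ⟨z, List.mem_cons_of_mem _ hz, List.mem_cons_of_mem _ hz'⟩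
      · obtain ⟨x₁', y₁'⟩ := u₁'
        simp only at f1 f2
        obtain rfl : x₁' = x := Fin.ext (by omega)
        rcases eq_or_ne y₁' y with rfl | hne
        · exact ⟨(x₁', y₁'), List.mem_cons_self, List.mem_cons_of_mem _ List.mem_cons_self⟩
        obtain ⟨z, hz, hz'⟩ := ih (t.length + 1 + 1 + (t'.length + 1)) (by omega)
          ((x₁', y) :: u₁ :: t) ((x₁', y₁') :: t') (by simp) x₁' y y₁'
          c c' (by have := fun e => hne (Fin.ext e); omega) hc
          ⟨List.isChain_cons_cons.2 hlc, rfl, by rw [List.getLast?_cons_cons]; exact hll⟩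
          ⟨hmc.2, rfl, hml⟩
        exact ⟨z, hz, List.mem_cons_of_mem _ hz'⟩
    · obtain ⟨x₁, y₁⟩ := u₁
      simp only at e1 e2
      obtain rfl : x₁ = x := Fin.ext (by omega)
      obtain ⟨z, hz, hz'⟩ := ih (t.length + 1 + (t'.length + 1 + 1)) (by omega) ((x₁, y₁) :: t)
        ((x₁, y') :: u₁' :: t') (by simp) x₁ y₁ y' c c' (by omega) hc ⟨hlc.2, rfl, hll⟩
        ⟨List.isChain_cons_cons.2 hmc, rfl, by rw [List.getLast?_cons_cons]; exact hml⟩
      exact ⟨z, List.mem_cons_of_mem _ hz, hz'⟩

theorem perm_eq_one_of_disjointed {n : ℕ} {a b : Fin n → Fin (M + 1)} (ha : StrictMono a)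
    (hb : StrictMono b) {x : Equiv.Perm (Fin n) × (Fin n → List (Fin (M + 1) × Fin (M + 1)))}
    (hx : x ∈ systems gridStep_rank (fun i => ((0 : Fin (M + 1)), a i)) (fun j => (b j, b j)))
    (hdis : Disjointed x.2) : x.1 = 1 := by
  have hp := (mem_systems gridStep_rank).1 hx
  have hmono : StrictMono x.1 := by
    intro i j hij
    by_contra hcon
    have hlt : x.1 j < x.1 i :=
      lt_of_le_of_ne (not_lt.1 hcon) fun e => hij.ne (x.1.injective e).symm
    obtain ⟨z, hz, hz'⟩ := exists_meet _ (x.2 i) (x.2 j) rfl 0 (a i) (a j) (b (x.1 i)) (b (x.1 j))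
      (ha hij) (hb hlt) (hp i) (hp j)
    exact hdis i j hij.ne z hz hz'
  exact Equiv.ext fun i => congrFun (hmono.range_inj strictMono_id |>.1 (by simp)) i

open Classical in
/-- **Binomial determinants count disjoint systems of lattice paths.** -/
theorem det_choose_eq {n : ℕ} (a b : Fin n → Fin (M + 1)) (ha : StrictMono a) (hb : StrictMono b) :
    (Matrix.of fun i j => (((a i).val.choose (b j).val : ℕ) : ℤ)).det =
      #((Fintype.piFinset fun i => paths gridStep_rank ((0 : Fin (M + 1)), a i) (b i, b i)).filter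
        Disjointed) := by
  have hM : (Matrix.of fun i j => (((a i).val.choose (b j).val : ℕ) : ℤ)) =
      Matrix.of fun i j => pathSum gridStep_rank (fun _ _ => (1 : ℤ)) ((0 : Fin (M + 1)), a i)
        (b j, b j) := by
    ext i j
    rw [Matrix.of_apply, Matrix.of_apply, pathSum_grid]
    split_ifs with h
    · simp
    · rw [Nat.choose_eq_zero_of_lt (by simp only [Fin.val_zero] at h; omega), Nat.cast_zero]
  rw [hM, det_pathSum_of_nonpermutable gridStep_rank _ _ _ fun x hx hdis =>
    perm_eq_one_of_disjointed ha hb hx hdis, card_eq_sum_ones, Nat.cast_sum]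
  refine sum_congr rfl fun p _ => ?_
  have hw : ∀ l : List (Fin (M + 1) × Fin (M + 1)), weight (fun _ _ => (1 : ℤ)) l = 1 := by
    intro l
    induction l with
    | nil => rfl
    | cons z l ihl =>
      rcases l with - | ⟨z', l⟩
      · rfl
      · rw [weight, ihl, one_mul]
  simp [hw]

theorem det_choose_nonneg {n : ℕ} (a b : Fin n → ℕ) (ha : StrictMono a) (hb : StrictMono b) :
    0 ≤ (Matrix.of fun i j => ((a i).choose (b j) : ℤ)).det := by
  set M := ∑ i, (a i + b i) with hM
  have hle : ∀ i, a i ≤ M ∧ b i ≤ M := fun i => by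
    have := single_le_sum (f := fun i => a i + b i) (fun _ _ => Nat.zero_le _) (mem_univ i)
    constructor <;> omega
  have h := det_choose_eq (M := M) (fun i => ⟨a i, by have := (hle i).1; omega⟩)
    (fun i => ⟨b i, by have := (hle i).2; omega⟩) (fun _ _ h => ha h) (fun _ _ h => hb h)
  simp only at h
  rw [h]
  exact Int.natCast_nonneg _

end FA.LGV

end
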