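import Fermat.Agent.LGV.Paths
import Mathlib.LinearAlgebra.Matrix.Determinant.Basic

/-!
# The lemma of Lindström, Gessel and Viennot

In an intersecting system let `i` be the first path meeting another, `v` its first common vertex,
`j` the first other path through `v`: exchanging the tails at `v` reverses the sign.
-/

set_option autoImplicit false

noncomputable section

open Finset Equiv

namespace FA.LGV

variable {V R : Type*} [Fintype V] [DecidableEq V] [CommRing R] {n : ℕ}

/-- No two paths have a common vertex. -/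
def Disjointed (p : Fin n → List V) : Prop := ∀ i j, i ≠ j → ∀ x ∈ p i, x ∉ p j

/-- The first path meeting another, its first common vertex, and the first other path there. -/
def Pivot (rk : V → ℕ) (p : Fin n → List V) (i : Fin n) (v : V) (j : Fin n) : Prop :=
  (∀ k < i, ∀ x ∈ p k, ∀ l, l ≠ k → x ∉ p l) ∧ v ∈ p i ∧ j ≠ i ∧ v ∈ p j ∧
    (∀ x ∈ p i, rk x < rk v → ∀ l, l ≠ i → x ∉ p l) ∧ ∀ l < j, l ≠ i → v ∉ p l

/-- A path with its tail replaced by that of another. -/
def splice (rk : V → ℕ) (v : V) (l m : List V) : List V :=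
  l.filter (fun x => decide (rk x < rk v)) ++ m.filter (fun x => decide (rk v ≤ rk x))

/-- The exchange of tails. -/
def exchange (rk : V → ℕ) (p : Fin n → List V) (i : Fin n) (v : V) (j : Fin n) : Fin n → List V :=
  Function.update (Function.update p i (splice rk v (p i) (p j))) j (splice rk v (p j) (p i))

omit [Fintype V] in
theorem exists_pivot {rk : V → ℕ} {p : Fin n → List V} (h : ¬Disjointed p) :
    ∃ i v j, Pivot rk p i v j := by
  classical
  simp only [Disjointed, not_forall, not_not] at h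
  obtain ⟨i0, j0, hne, x0, hx0, hx0'⟩ := h
  set I := univ.filter fun i => ∃ x ∈ p i, ∃ l, l ≠ i ∧ x ∈ p l
  obtain ⟨i, hiI, himin⟩ := I.exists_min_image id
    ⟨i0, mem_filter.2 ⟨mem_univ _, x0, hx0, j0, hne.symm, hx0'⟩⟩
  obtain ⟨y, hy, l0, hl0, hy'⟩ := (mem_filter.1 hiI).2
  obtain ⟨v, hvS, hvmin⟩ := ((p i).toFinset.filter fun x => ∃ l, l ≠ i ∧ x ∈ p l).exists_min_image
    rk ⟨y, mem_filter.2 ⟨List.mem_toFinset.2 hy, l0, hl0, hy'⟩⟩
  obtain ⟨hvi, l1, hl1, hv1⟩ := mem_filter.1 hvS
  obtain ⟨j, hjJ, hjmin⟩ := (univ.filter fun l => l ≠ i ∧ v ∈ p l).exists_min_image id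
    ⟨l1, mem_filter.2 ⟨mem_univ _, hl1, hv1⟩⟩
  obtain ⟨hji, hvj⟩ := (mem_filter.1 hjJ).2
  refine ⟨i, v, j, fun k hk x hx l hl hxl => ?_, List.mem_toFinset.1 hvi, hji, hvj,
    fun x hx hlt l hl hxl => ?_, fun l hl hli hvl => ?_⟩
  · exact absurd (himin k (mem_filter.2 ⟨mem_univ _, x, hx, l, hl, hxl⟩)) hk.not_ge
  · exact absurd (hvmin x (mem_filter.2 ⟨List.mem_toFinset.2 hx, l, hl, hxl⟩)) hlt.not_ge
  · exact absurd (hjmin l (mem_filter.2 ⟨mem_univ _, hli, hvl⟩)) hl.not_ge

omit [Fintype V] [DecidableEq V] in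
theorem mem_splice {rk : V → ℕ} {v x : V} {l m : List V} : x ∈ splice rk v l m ↔
    x ∈ l ∧ rk x < rk v ∨ x ∈ m ∧ rk v ≤ rk x := by
  simp [splice]

omit [Fintype V] [DecidableEq V] in
theorem pivot_exchange {rk : V → ℕ} {p : Fin n → List V} {i j : Fin n} {v : V}
    (h : Pivot rk p i v j) :
    Pivot rk (exchange rk p i v j) i v j := by
  obtain ⟨h1, h2, h3, h4, h5, h6⟩ := h
  have hqi : exchange rk p i v j i = splice rk v (p i) (p j) := by simp [exchange, h3.symm]
  have hqj : exchange rk p i v j j = splice rk v (p j) (p i) := by simp [exchange]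
  have hqk : ∀ k, k ≠ i → k ≠ j → exchange rk p i v j k = p k := fun k hki hkj => by
    simp [exchange, hki, hkj]
  have hij : i < j := lt_of_le_of_ne (not_lt.1 fun hlt => h1 j hlt v h4 i h3.symm h2) h3.symm
  have hsub : ∀ l x, x ∈ exchange rk p i v j l → x ∈ p i ∨ x ∈ p j ∨ x ∈ p l := by
    intro l x hx
    rcases eq_or_ne l i with rfl | hli
    · rw [hqi, mem_splice] at hx
      tauto
    rcases eq_or_ne l j with rfl | hlj
    · rw [hqj, mem_splice] at hx
      tauto
    rw [hqk l hli hlj] at hx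
    exact Or.inr (Or.inr hx)
  refine ⟨fun k hk x hx l hl hxl => ?_, ?_, h3, ?_, fun x hx hlt l hl hxl => ?_, fun l hl hli => ?_⟩
  · rw [hqk k hk.ne (hk.trans hij).ne] at hx
    rcases hsub l x hxl with hm | hm | hm
    · exact h1 k hk x hx i hk.ne' hm
    · exact h1 k hk x hx j (hk.trans hij).ne' hm
    · exact h1 k hk x hx l hl hm
  · rw [hqi, mem_splice]
    exact Or.inr ⟨h4, le_rfl⟩
  · rw [hqj, mem_splice]
    exact Or.inr ⟨h2, le_rfl⟩
  · rw [hqi, mem_splice] at hx
    have hxp : x ∈ p i := (hx.resolve_right fun h => h.2.not_gt hlt).1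
    rcases eq_or_ne l j with rfl | hlj
    · rw [hqj, mem_splice] at hxl
      exact h5 x hxp hlt l h3 (hxl.resolve_right fun h => h.2.not_gt hlt).1
    · rw [hqk l hl hlj] at hxl
      exact h5 x hxp hlt l hl hxl
  · rw [hqk l hli hl.ne]
    exact h6 l hl hli

variable {E : V → V → Prop} {rk : V → ℕ} (hrk : ∀ u v, E u v → rk u < rk v)
include hrk

omit [Fintype V] [DecidableEq V] in
theorem pivot_unique {p : Fin n → List V} (hp : ∀ k, (p k).IsChain E) {i i' j j' : Fin n}
    {v v' : V} (h : Pivot rk p i v j) (h' : Pivot rk p i' v' j') : i = i' ∧ v = v' ∧ j = j' := by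
  obtain ⟨h1, h2, h3, h4, h5, h6⟩ := h
  obtain ⟨h1', h2', h3', h4', h5', h6'⟩ := h'
  obtain rfl : i = i' := by
    rcases lt_trichotomy i i' with hlt | he | hlt
    · exact absurd h4 (h1' i hlt v h2 j h3)
    · exact he
    · exact absurd h4' (h1 i' hlt v' h2' j' h3')
  obtain rfl : v = v' := by
    refine eq_of_rank_eq hrk (hp i) h2 h2' (le_antisymm ?_ ?_)
    · by_contra hlt
      exact h5 v' h2' (not_le.1 hlt) j' h3' h4'
    · by_contra hlt
      exact h5' v h2 (not_le.1 hlt) j h3 h4
  refine ⟨rfl, rfl, ?_⟩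
  rcases lt_trichotomy j j' with hlt | he | hlt
  · exact absurd h4 (h6' j hlt h3)
  · exact he
  · exact absurd h4' (h6 j' hlt h3')

omit [Fintype V] [DecidableEq V] in
theorem splice_facts {a b c d v : V} {l m : List V} (hl : IsPath E a b l) (hm : IsPath E c d m)
    (hvl : v ∈ l) (hvm : v ∈ m) :
    IsPath E a d (splice rk v l m) ∧ splice rk v (splice rk v l m) (splice rk v m l) = l ∧
      ∀ w : V → V → R, weight w (splice rk v l m) * weight w (splice rk v m l) =
        weight w l * weight w m := by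
  obtain ⟨s, t, hst, hs, ht⟩ := exists_split hrk hl.1 hvl
  obtain ⟨s', t', hst', hs', ht'⟩ := exists_split hrk hm.1 hvm
  have e1 : splice rk v l m = s ++ v :: t' := by rw [splice, hs, ht']
  have e2 : splice rk v m l = s' ++ v :: t := by rw [splice, hs', ht]
  obtain ⟨hlc, hlh, hll⟩ := hl
  obtain ⟨hmc, hmh, hml⟩ := hm
  rw [hst] at hlc hlh hll
  rw [hst'] at hmc hml
  have hc : (s ++ v :: t').IsChain E :=
    List.isChain_split.2 ⟨(List.isChain_split.1 hlc).1, (List.isChain_split.1 hmc).2⟩
  have hc' : (s' ++ v :: t).IsChain E :=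
    List.isChain_split.2 ⟨(List.isChain_split.1 hmc).1, (List.isChain_split.1 hlc).2⟩
  refine ⟨⟨e1 ▸ hc, ?_, ?_⟩, ?_, fun w => ?_⟩
  · rw [e1, ← hlh]
    cases s <;> simp
  · rw [e1, ← hml, List.getLast?_append, List.getLast?_append]
    rw [List.getLast?_eq_some_getLast (l := v :: t') (by simp)]
    rfl
  · rw [e1, e2, splice, (filter_split hrk hc).1, (filter_split hrk hc').2, hst]
  · rw [e1, e2, hst, hst', weight_split w v t', weight_split w v t, weight_split w v t,
      weight_split w v t']
    ring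

/-- The systems of paths from the `A i` to the `B (σ i)`. -/
def systems (A B : Fin n → V) : Finset (Equiv.Perm (Fin n) × (Fin n → List V)) :=
  univ.biUnion fun σ => (Fintype.piFinset fun i => paths hrk (A i) (B (σ i))).image (Prod.mk σ)

theorem mem_systems {A B : Fin n → V} {x : Equiv.Perm (Fin n) × (Fin n → List V)} :
    x ∈ systems hrk A B ↔ ∀ i, IsPath E (A i) (B (x.1 i)) (x.2 i) := by
  obtain ⟨σ, p⟩ := x
  simp [systems, mem_paths]

open Classical in
/-- **The lemma of Lindström, Gessel and Viennot.** -/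
theorem det_pathSum (w : V → V → R) (A B : Fin n → V) :
    (Matrix.of fun i j => pathSum hrk w (A i) (B j)).det =
      ∑ x ∈ (systems hrk A B).filter fun x => Disjointed x.2,
        (Equiv.Perm.sign x.1 : ℤ) * ∏ i, weight w (x.2 i) := by
  have hexp : (Matrix.of fun i j => pathSum hrk w (A i) (B j)).det =
      ∑ x ∈ systems hrk A B, (Equiv.Perm.sign x.1 : ℤ) * ∏ i, weight w (x.2 i) := by
    rw [← Matrix.det_transpose, Matrix.det_apply', systems, sum_biUnion]
    · refine sum_congr rfl fun σ _ => ?_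
      rw [sum_image fun _ _ _ _ h => (Prod.ext_iff.1 h).2]
      simp only [Matrix.transpose_apply, Matrix.of_apply, pathSum, ← mul_sum]
      rw [prod_univ_sum]
    · intro σ _ τ _ hne
      simp only [Function.onFun, Finset.disjoint_left, mem_image]
      rintro _ ⟨p, -, rfl⟩ ⟨q, -, h⟩
      exact hne (Prod.ext_iff.1 h).1.symm
  rw [hexp, ← sum_filter_add_sum_filter_not _ fun x => Disjointed x.2]
  refine add_eq_left.2 ?_
  have hpiv : ∀ x ∈ (systems hrk A B).filter (fun x => ¬Disjointed x.2),
      ∃ d : Fin n × V × Fin n, Pivot rk x.2 d.1 d.2.1 d.2.2 := fun x hx => by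
    obtain ⟨i, v, j, h⟩ := exists_pivot (rk := rk) (mem_filter.1 hx).2
    exact ⟨(i, v, j), h⟩
  choose d hd using hpiv
  refine sum_involution (fun x hx =>
    (x.1 * Equiv.swap (d x hx).1 (d x hx).2.2,
      exchange rk x.2 (d x hx).1 (d x hx).2.1 (d x hx).2.2)) ?_ ?_ ?_ ?_
  · intro x hx
    obtain ⟨-, h2, h3, h4, -, -⟩ := hd x hx
    have hp := (mem_systems hrk).1 (mem_filter.1 hx).1
    set i := (d x hx).1
    set v := (d x hx).2.1
    set j := (d x hx).2.2
    have hprod : ∏ k, weight w (exchange rk x.2 i v j k) = ∏ k, weight w (x.2 k) := by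
      rw [← mul_prod_erase univ _ (mem_univ i), ← mul_prod_erase _ _
        (mem_erase.2 ⟨h3, mem_univ j⟩), ← mul_prod_erase univ (fun k => weight w (x.2 k))
        (mem_univ i), ← mul_prod_erase _ (fun k => weight w (x.2 k))
        (mem_erase.2 ⟨h3, mem_univ j⟩), ← mul_assoc, ← mul_assoc]
      congr 1
      · simp only [exchange, Function.update_self, Function.update_of_ne h3.symm]
        exact (splice_facts hrk (R := R) (hp i) (hp j) h2 h4).2.2 w
      · refine prod_congr rfl fun k hk => ?_
        obtain ⟨hkj, hki, -⟩ := mem_erase.1 hk |>.imp id mem_erase.1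
        simp [exchange, hkj, hki]
    dsimp only
    rw [hprod, map_mul, Equiv.Perm.sign_swap h3.symm]
    push_cast
    ring
  · intro x hx _ h
    obtain ⟨-, -, h3, -, -, -⟩ := hd x hx
    exact h3.symm (Equiv.swap_eq_one_iff.1 (mul_left_cancel ((congrArg Prod.fst h).trans
      (mul_one x.1).symm)))
  · intro x hx
    obtain ⟨-, h2, h3, h4, -, -⟩ := hd x hx
    have hp := (mem_systems hrk).1 (mem_filter.1 hx).1
    have hq := pivot_exchange (hd x hx)
    set i := (d x hx).1
    set v := (d x hx).2.1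
    set j := (d x hx).2.2
    refine mem_filter.2 ⟨(mem_systems hrk).2 fun k => ?_, fun hdis => ?_⟩
    · show IsPath E (A k) (B ((x.1 * Equiv.swap i j) k)) (exchange rk x.2 i v j k)
      rw [Equiv.Perm.mul_apply]
      rcases eq_or_ne k i with rfl | hki
      · rw [Equiv.swap_apply_left]
        simp only [exchange, Function.update_self, Function.update_of_ne h3.symm]
        exact (splice_facts hrk (R := R) (hp i) (hp j) h2 h4).1
      rcases eq_or_ne k j with rfl | hkj
      · rw [Equiv.swap_apply_right]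
        simp only [exchange, Function.update_self]
        exact (splice_facts hrk (R := R) (hp j) (hp i) h4 h2).1
      rw [Equiv.swap_apply_of_ne_of_ne hki hkj]
      simpa [exchange, hki, hkj] using hp k
    · exact hdis i j h3.symm v hq.2.1 hq.2.2.2.1
  · intro x hx
    obtain ⟨-, h2, h3, h4, -, -⟩ := hd x hx
    have hp := (mem_systems hrk).1 (mem_filter.1 hx).1
    set y : Equiv.Perm (Fin n) × (Fin n → List V) := (x.1 * Equiv.swap (d x hx).1 (d x hx).2.2,
      exchange rk x.2 (d x hx).1 (d x hx).2.1 (d x hx).2.2) with hy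
    suffices ∀ hy' : y ∈ (systems hrk A B).filter (fun x => ¬Disjointed x.2),
        (y.1 * Equiv.swap (d y hy').1 (d y hy').2.2,
          exchange rk y.2 (d y hy').1 (d y hy').2.1 (d y hy').2.2) = x from this _
    intro hy'
    obtain ⟨e1, e2, e3⟩ := pivot_unique hrk
      (fun k => ((mem_systems hrk).1 (mem_filter.1 hy').1 k).1)
      (hd y hy') (pivot_exchange (hd x hx))
    rw [e1, e2, e3]
    set i := (d x hx).1
    set v := (d x hx).2.1
    set j := (d x hx).2.2
    refine Prod.ext ?_ (funext fun k => ?_)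
    · simp [hy, mul_assoc]
    show exchange rk (exchange rk x.2 i v j) i v j k = x.2 k
    rcases eq_or_ne k j with rfl | hkj
    · simp only [exchange, Function.update_self, Function.update_of_ne h3.symm]
      exact (splice_facts hrk (R := R) (hp j) (hp i) h4 h2).2.1
    rcases eq_or_ne k i with rfl | hki
    · simp only [exchange, Function.update_self, Function.update_of_ne h3.symm]
      exact (splice_facts hrk (R := R) (hp i) (hp j) h2 h4).2.1
    simp [exchange, hki, hkj]

open Classical in
/-- If only the identity admits disjoint systems, the determinant counts them. -/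
theorem det_pathSum_of_nonpermutable (w : V → V → R) (A B : Fin n → V)
    (hnp : ∀ x ∈ systems hrk A B, Disjointed x.2 → x.1 = 1) :
    (Matrix.of fun i j => pathSum hrk w (A i) (B j)).det =
      ∑ p ∈ (Fintype.piFinset fun i => paths hrk (A i) (B i)).filter Disjointed,
        ∏ i, weight w (p i) := by
  rw [det_pathSum]
  refine sum_bij' (fun x _ => x.2) (fun p _ => (1, p)) ?_ ?_ ?_ ?_ ?_
  · intro x hx
    obtain ⟨hx, hdis⟩ := mem_filter.1 hx
    have h := (mem_systems hrk).1 hx
    rw [hnp x hx hdis] at h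
    exact mem_filter.2 ⟨Fintype.mem_piFinset.2 fun i => (mem_paths hrk).2 (h i), hdis⟩
  · intro p hp
    obtain ⟨hp, hdis⟩ := mem_filter.1 hp
    exact mem_filter.2 ⟨(mem_systems hrk).2 fun i =>
      (mem_paths hrk).1 (Fintype.mem_piFinset.1 hp i), hdis⟩
  · intro x hx
    exact Prod.ext (hnp x (mem_filter.1 hx).1 (mem_filter.1 hx).2).symm rfl
  · intro p _
    rfl
  · intro x hx
    rw [hnp x (mem_filter.1 hx).1 (mem_filter.1 hx).2]
    simp

end FA.LGV

end
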