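import Mathlib.Algebra.BigOperators.Group.Finset.Basic
import Mathlib.Algebra.BigOperators.Ring.Finset
import Mathlib.Data.Fintype.List
import Mathlib.Data.List.Chain
import Mathlib.Tactic.Ring

/-!
# Paths in a finite acyclic graph

A path is a nonempty list of vertices along edges, which increase the rank `rk`.
-/

set_option autoImplicit false

noncomputable section

open Finset

namespace FA.LGV

variable {V R : Type*} [Fintype V] [DecidableEq V] [CommRing R]

/-- `l` is a path from `a` to `b`. -/
def IsPath (E : V → V → Prop) (a b : V) (l : List V) : Prop :=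
  l.IsChain E ∧ l.head? = some a ∧ l.getLast? = some b

/-- The weight of a path. -/
def weight (w : V → V → R) : List V → R
  | x :: y :: t => w x y * weight w (y :: t)
  | _ => 1

omit [Fintype V] [DecidableEq V] in
theorem weight_split (w : V → V → R) (v : V) (t : List V) :
    ∀ s : List V, weight w (s ++ v :: t) = weight w (s ++ [v]) * weight w (v :: t)
  | [] => by simp [weight]
  | [x] => by simp [weight]
  | x :: y :: s => by
      simp only [List.cons_append, weight]
      rw [← List.cons_append, ← List.cons_append, weight_split w v t (y :: s)]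
      ring

variable {E : V → V → Prop} {rk : V → ℕ} (hrk : ∀ u v, E u v → rk u < rk v)
include hrk

omit [Fintype V] [DecidableEq V] in
theorem pairwise_rank {l : List V} (h : l.IsChain E) : l.Pairwise fun u v => rk u < rk v := by
  have : IsTrans V fun u v => rk u < rk v := ⟨fun _ _ _ => Nat.lt_trans⟩
  exact List.isChain_iff_pairwise.1 (h.imp hrk)

omit [Fintype V] [DecidableEq V] in
theorem nodup_path {l : List V} (h : l.IsChain E) : l.Nodup :=
  (pairwise_rank hrk h).imp fun hlt e => absurd (congrArg rk e) hlt.ne

omit [Fintype V] [DecidableEq V] in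
/-- A path is determined at a vertex on it. -/
theorem eq_of_rank_eq {l : List V} (h : l.IsChain E) {u v : V} (hu : u ∈ l) (hv : v ∈ l)
    (huv : rk u = rk v) : u = v := by
  by_contra hne
  have hp : l.Pairwise fun u v => rk u ≠ rk v := (pairwise_rank hrk h).imp Nat.ne_of_lt
  have : Std.Symm fun u v => rk u ≠ rk v := ⟨fun _ _ => Ne.symm⟩
  exact hp.forall hu hv hne huv

omit [Fintype V] [DecidableEq V] in
/-- The two parts of a path at a vertex, by rank. -/
theorem filter_split {s t : List V} {v : V} (h : (s ++ v :: t).IsChain E) :
    (s ++ v :: t).filter (fun x => decide (rk x < rk v)) = s ∧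
      (s ++ v :: t).filter (fun x => decide (rk v ≤ rk x)) = v :: t := by
  obtain ⟨-, hvt, hst⟩ := List.pairwise_append.1 (pairwise_rank hrk h)
  refine ⟨?_, ?_⟩
  · rw [List.filter_append, List.filter_eq_self.2 fun x hx => by simpa using hst x hx v (by simp),
      List.filter_eq_nil_iff.2 fun x hx => ?_, List.append_nil]
    rcases List.mem_cons.1 hx with rfl | hx
    · simp
    · simpa using ((List.pairwise_cons.1 hvt).1 x hx).le
  · rw [List.filter_append,
      List.filter_eq_nil_iff.2 fun x hx => by simpa using hst x hx v (by simp),
      List.filter_eq_self.2 fun x hx => ?_, List.nil_append]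
    rcases List.mem_cons.1 hx with rfl | hx
    · simp
    · simpa using ((List.pairwise_cons.1 hvt).1 x hx).le

omit [Fintype V] [DecidableEq V] in
theorem exists_split {l : List V} (h : l.IsChain E) {v : V} (hv : v ∈ l) :
    ∃ s t, l = s ++ v :: t ∧ l.filter (fun x => decide (rk x < rk v)) = s ∧
      l.filter (fun x => decide (rk v ≤ rk x)) = v :: t := by
  obtain ⟨s, t, rfl⟩ := List.append_of_mem hv
  exact ⟨s, t, rfl, filter_split hrk h⟩

omit [DecidableEq V] in
theorem finite_paths (a b : V) : {l | IsPath E a b l}.Finite := by
  classical
  refine ((Set.finite_univ (α := {l : List V // l.Nodup})).image Subtype.val).subset fun l hl => ?_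
  exact ⟨⟨l, nodup_path hrk hl.1⟩, trivial, rfl⟩

/-- The paths from `a` to `b`. -/
def paths (a b : V) : Finset (List V) := (finite_paths hrk a b).toFinset

omit [DecidableEq V] in
theorem mem_paths {a b : V} {l : List V} : l ∈ paths hrk a b ↔ IsPath E a b l :=
  (finite_paths hrk a b).mem_toFinset

/-- The sum of the weights of the paths from `a` to `b`. -/
def pathSum (w : V → V → R) (a b : V) : R := ∑ l ∈ paths hrk a b, weight w l

/-- The first step of a path. -/
theorem pathSum_eq [DecidableRel E] (w : V → V → R) (a b : V) : pathSum hrk w a b =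
    (if a = b then 1 else 0) + ∑ v, if E a v then w a v * pathSum hrk w v b else 0 := by
  classical
  have hsplit : paths hrk a b = (if a = b then {[a]} else ∅) ∪
      ((univ.filter (E a)).biUnion fun v => (paths hrk v b).image (List.cons a)) := by
    ext l
    simp only [mem_paths, mem_union, mem_biUnion, mem_image, mem_filter, mem_univ, true_and]
    constructor
    · rintro ⟨hc, hh, hl⟩
      rcases l with - | ⟨x, - | ⟨y, t⟩⟩
      · simp at hh
      · obtain rfl : x = a := by simpa using hh
        obtain rfl : x = b := by simpa using hl
        simp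
      · obtain rfl : x = a := by simpa using hh
        rw [List.isChain_cons_cons] at hc
        exact Or.inr ⟨y, hc.1, y :: t,
          ⟨hc.2, rfl, by simpa [List.getLast?_cons_cons] using hl⟩, rfl⟩
    · rintro (h | ⟨v, hv, m, ⟨hc, hh, hl⟩, rfl⟩)
      · split_ifs at h with hab
        · obtain rfl := Finset.mem_singleton.1 h
          exact ⟨List.isChain_singleton _, rfl, by simp [hab]⟩
        · simp at h
      · rcases m with - | ⟨y, t⟩
        · simp at hh
        obtain rfl : y = v := by simpa using hh
        exact ⟨List.isChain_cons_cons.2 ⟨hv, hc⟩, rfl, by rw [List.getLast?_cons_cons]; exact hl⟩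
  rw [pathSum, hsplit, sum_union, sum_biUnion]
  · congr 1
    · split_ifs <;> simp [weight]
    · rw [sum_filter]
      refine sum_congr rfl fun v _ => ?_
      by_cases hv : E a v
      · rw [if_pos hv, if_pos hv, sum_image fun _ _ _ _ h => (List.cons.inj h).2, pathSum, mul_sum]
        refine sum_congr rfl fun m hm => ?_
        obtain ⟨-, hh, -⟩ := (mem_paths hrk).1 hm
        rcases m with - | ⟨y, t⟩
        · simp at hh
        obtain rfl : y = v := by simpa using hh
        rfl
      · rw [if_neg hv, if_neg hv]
  · intro u _ v _ huv
    simp only [Function.onFun, Finset.disjoint_left, mem_image, mem_paths]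
    rintro _ ⟨m, hm, rfl⟩ ⟨m', hm', h⟩
    obtain rfl := (List.cons.inj h).2
    exact huv (Option.some.inj (hm.2.1.symm.trans hm'.2.1))
  · rw [Finset.disjoint_left]
    intro l hl hl'
    split_ifs at hl with hab
    · obtain rfl := Finset.mem_singleton.1 hl
      simp only [mem_biUnion, mem_image, mem_paths] at hl'
      obtain ⟨v, -, m, hm, he⟩ := hl'
      rw [(List.cons.inj he).2] at hm
      simpa using hm.2.1
    · simp at hl

end FA.LGV

end
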